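/-
Row 37 (S43), block E0, node PULL (helper124): the Weil pairing and pull-back.
For a finite extension `F ⊆ F'` of function fields over an algebraically closed field of characteristic zero:

    `e_n(π^* x, π^* y) = e_n(x, y) ^ [F' : F]`        (`weil_pull`, on `Pic⁰`;  `weilW_pull`, on Kummer classes).

Corollaries: if `[F' : F]` is prime to `n` then `e_n(π^* x, π^* y) = 1 → e_n(x, y) = 1`.
-/
import Fermat.Agent.S43.Free.WeilAdj
import Fermat.Agent.S15.LocN.WeilAux

set_option autoImplicit false
set_option linter.unusedSectionVars false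

noncomputable section

namespace Fermat.Agent.S43.E0.Pull

open AlgebraicCurve Fermat.Agent.S24 Fermat.Agent.S24.FF Fermat.Agent.S27 Fermat.Agent.S19.Weil
open Fermat.Agent.S37.HeckeInputs Fermat.Agent.S43.Free Fermat.Agent.S48.BB.M

/-- An `n`-th root of unity whose `d`-th power is `1`, `d` prime to `n`, is `1`. -/
theorem eq_one_of_pow_coprime {G : Type*} [Monoid G] {z : G} {n d : ℕ} (hnd : n.Coprime d)
    (h1 : z ^ n = 1) (h2 : z ^ d = 1) : z = 1 := by
  have h := orderOf_dvd_of_pow_eq_one h1
  have h' := orderOf_dvd_of_pow_eq_one h2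
  have : orderOf z = 1 := Nat.eq_one_of_dvd_coprimes hnd h h'
  exact orderOf_eq_one_iff.1 this

section Pic

variable {K F F' : Type*} [Field K] [Field F] [Field F'] [Algebra K F] [Algebra K F']
  [Algebra F F'] [IsScalarTower K F F'] [IsAlgClosed K] [CharZero K] [IsFF1 K F] [IsFF1 K F']
  [Module.Finite F F'] [NonConst K F] [NonConst K F'] [HasPrincipalDivisors K F']
  [FundamentalIdentity K F F']

/-- `f(π^* D) = f(D) ^ deg π`. -/
theorem evDiv_algebraMap_pullback {f : F} {D : Divisor K F} (h : UnitOn f D)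
    (h' : UnitOn (algebraMap F F' f) (Divisor.pullback F' D)) :
    evDiv (algebraMap F F' f) (Divisor.pullback F' D) = evDiv f D ^ Module.finrank F F' := by
  rw [← evDiv_norm (algebraMap F F' f) D h', Algebra.norm_algebraMap, evDiv_pow h]

/-- **Pull-back**: `e_n(π^* x, π^* y) = e_n(x, y) ^ deg π`. -/
theorem weil_pull {n : ℕ} (hn : 0 < n) {x y : Pic0 K F} (hx : (n : ℤ) • x = 0)
    (hy : (n : ℤ) • y = 0) :
    weil n (Pic0.pullbackHom F' x) (Pic0.pullbackHom F' y) = weil n x y ^ Module.finrank F F' := by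
  classical
  obtain ⟨b, -⟩ := exists_torsRep hy (∅ : Finset (Place K F))
  obtain ⟨a, ha⟩ := exists_disjoint_torsRep hx b
  have d1 : Disjoint (torsRepPull (F' := F') a).D.support (torsRepPull (F' := F') b).D.support := by
    rw [Finset.disjoint_left]
    intro w hw hwb
    rw [Finsupp.mem_support_iff] at hw hwb
    have h1 : a.D (w.restrict F) ≠ 0 := by
      intro h0
      apply hw
      show Divisor.pullback F' a.D w = 0
      rw [Divisor.pullback_apply, h0, mul_zero]
    have h2 : b.D (w.restrict F) ≠ 0 := by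
      intro h0
      apply hwb
      show Divisor.pullback F' b.D w = 0
      rw [Divisor.pullback_apply, h0, mul_zero]
    exact Finset.disjoint_left.1 ha (Finsupp.mem_support_iff.2 h1) (Finsupp.mem_support_iff.2 h2)
  rw [weil_eq hn _ _ d1, weil_eq hn _ _ ha, weilRep, weilRep, div_pow]
  have e1 : evDiv (torsRepPull (F' := F') a).f (torsRepPull (F' := F') b).D =
      evDiv a.f b.D ^ Module.finrank F F' :=
    evDiv_algebraMap_pullback (a.unitOn b ha) ((torsRepPull (F' := F') a).unitOn _ d1)
  have e2 : evDiv (torsRepPull (F' := F') b).f (torsRepPull (F' := F') a).D =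
      evDiv b.f a.D ^ Module.finrank F F' :=
    evDiv_algebraMap_pullback (b.unitOn a ha.symm) ((torsRepPull (F' := F') b).unitOn _ d1.symm)
  rw [e1, e2]

/-- orthogonality descends along a covering of degree prime to `n`. -/
theorem weil_eq_one_of_pull {n : ℕ} (hn : 0 < n) (hd : n.Coprime (Module.finrank F F'))
    {x y : Pic0 K F} (hx : (n : ℤ) • x = 0) (hy : (n : ℤ) • y = 0)
    (h : weil n (Pic0.pullbackHom F' x) (Pic0.pullbackHom F' y) = 1) : weil n x y = 1 := by
  rw [weil_pull hn hx hy] at h
  exact eq_one_of_pow_coprime hd (Fermat.Agent.S15.LocN.weil_pow_eq_one hn hx hy) h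

end Pic

section Kum

variable {L0 L1 : Type} [Field L0] [Field L1] [Algebra Kbar L0] [Algebra Kbar L1]
  [Algebra L0 L1] [IsScalarTower Kbar L0 L1] [Module.Finite L0 L1]
  [IsFF1 Kbar L0] [IsFF1 Kbar L1] [NonConst Kbar L0] [NonConst Kbar L1]

/-- **Pull-back** on Kummer classes. -/
theorem weilW_pull {n : ℕ} (hn : 0 < n) (x y : W L0 n) :
    weilW n (upW L0 L1 n x) (upW L0 L1 n y) = weilW n x y ^ Module.finrank L0 L1 := by
  have : HasPrincipalDivisors Kbar L1 := hasPrincipalDivisors
  have : FundamentalIdentity Kbar L0 L1 := fundamentalIdentity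
  unfold weilW
  rw [weilAdj_picW_upW hn, weilAdj_picW_upW hn]
  exact weil_pull hn (zsmul_picW hn x) (zsmul_picW hn y)

/-- orthogonality descends along a covering of degree prime to `n`. -/
theorem weilW_eq_one_of_pull {n : ℕ} (hn : 0 < n) (hd : n.Coprime (Module.finrank L0 L1))
    (x y : W L0 n) (h : weilW n (upW L0 L1 n x) (upW L0 L1 n y) = 1) : weilW n x y = 1 := by
  rw [weilW_pull hn] at h
  exact eq_one_of_pow_coprime hd (weilW_pow_eq_one hn x y) h

end Kum

end Fermat.Agent.S43.E0.Pull

end
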