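/-
Row 37 (S43), block E0, node PULL (helper124): THE LEVEL CHANGE `M q → (M * 4) q` FOR THE STATEMENT (O).

`StmtO M q`: at level `M q`, a class with a representative `(D, u)`, `u` defined over the inertia field `K0 A` and a unit at
the two vertical valuations, is orthogonal (Weil pairing) to the toric classes.
`stmtO_of_mul_four : StmtO (M * 4) q → StmtO M q`  (the degree of `X₀(4 M q) → X₀(M q)` is `4` or `6`, prime to `n`).
-/
import Fermat.Agent.S43.E0.Pull.Weil
import Fermat.Agent.C1.LevelChange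
import Fermat.Agent.S15.LocN.Jac
import Fermat.Agent.S44.X.Model.GaussFN

set_option autoImplicit false
set_option linter.unusedSectionVars false

noncomputable section

namespace Fermat.Agent.S43.E0.Pull

open ModularCurve AlgebraicCurve Fermat.Agent.S24 Fermat.Agent.S24.B Fermat.Agent.GAL
  Fermat.Agent.GAL.E Fermat.Agent.C1 Fermat.Agent.S27 Fermat.Agent.S19.Weil Fermat.Agent.S18
  Fermat.Agent.S36.Mod Fermat.Agent.BAD.LevelQ.Mod Fermat.Agent.Lib.InertiaField
  Fermat.Agent.S44.X.Cover Fermat.Agent.S15.LocN Fermat.Agent.S37.HeckeInputs Fermat.Agent.S43.Free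

/-- **Statement (O)** at level `M q`. -/
def StmtO (M q : ℕ) [NeZero M] [NeZero q] : Prop :=
  ∀ (hc : M.Coprime q) (D : ALData M q) (A : ValuationSubring Kbar)
    [IsDiscreteValuationRing (A0 A)], A.LiesOverPrime q →
    ∀ n : ℕ, 0 < n → ¬ q ∣ n → n.Coprime 6 →
    ∀ (x y : JZero (M * q)) (a : TorsRep n x) (u : FK (K0 A) (M * q)),
      a.f = bcX (K0 A) (M * q) u → (∀ c, (VV (A0 A) hc c).valuation u = 1) → IsTorJ D A n y →
      weil n x y = 1

/-! ### the inclusion of levels over `K` -/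

section Incl

variable (K : Type) [Field K] [Algebra ℚ K] {N N' : ℕ} [NeZero N] [NeZero N']

theorem FK_le (h : N ∣ N') : FK K N ≤ FK K N' :=
  IntermediateField.adjoin.mono K _ _ (Set.image_mono (full_degeneracy_le h))

/-- the inclusion `F_K(N) → F_K(N')` -/
def inclK (h : N ∣ N') : FK K N →ₐ[K] FK K N' := IntermediateField.inclusion (FK_le K h)

theorem coe_inclK (h : N ∣ N') (z : FK K N) :
    ((inclK K h z : FK K N') : LaurentSeries K) = z := IntermediateField.coe_inclusion (FK_le K h) z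

theorem bcX_inclK [Algebra K Kbar] (h : N ∣ N') (z : FK K N) :
    bcX K N' (inclK K h z) = levelIncl h (bcX K N z) := by
  apply Subtype.ext
  rw [coe_bcX, coe_levelIncl, coe_bcX, coe_inclK]

variable {K}

theorem inclK_mem_Og (A₀ : ValuationSubring K) [IsDiscreteValuationRing A₀] (h : N ∣ N')
    (z : FK K N) : inclK K h z ∈ Og A₀ N' ↔ z ∈ Og A₀ N := by
  have e : (stdEmb A₀ N').cod (inclK K h z) = (stdEmb A₀ N).cod z := by
    apply Subtype.ext
    rw [IntEmb.coe_cod, IntEmb.coe_cod, stdEmb_toHom_apply, stdEmb_toHom_apply, coe_inclK]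
  unfold Og
  rw [IntEmb.mem_val_iff', IntEmb.mem_val_iff', e]

end Incl

/-- `v(u) = 1` in terms of membership. -/
theorem valuation_eq_one_iff' {F : Type*} [Field F] (V : ValuationSubring F) (u : F) :
    V.valuation u = 1 ↔ u ≠ 0 ∧ u ∈ V ∧ u⁻¹ ∈ V := by
  constructor
  · intro h
    refine ⟨?_, ?_, ?_⟩
    · rintro rfl
      rw [map_zero] at h
      exact zero_ne_one h
    · rw [← V.valuation_le_one_iff, h]
    · rw [← V.valuation_le_one_iff, map_inv₀, h, inv_one]
  · rintro ⟨h0, h1, h2⟩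
    rw [← V.valuation_le_one_iff] at h1 h2
    rw [map_inv₀] at h2
    have hv : V.valuation u ≠ 0 := (map_ne_zero _).2 h0
    refine le_antisymm h1 ?_
    exact (inv_le_one₀ (zero_lt_iff.2 hv)).1 h2

section AL

variable {K : Type} [Field K] [Algebra ℚ K] [Algebra K Kbar] {M M' q : ℕ} [NeZero M] [NeZero M']
  [NeZero q]

theorem ww_inclK (hq : q.Prime) (h : M ∣ M') (h' : M * q ∣ M' * q) (hc : M.Coprime q)
    (hc' : M'.Coprime q) (z : FK K (M * q)) :
    ww K hc' (inclK K h' z) = inclK K h' (ww K hc z) := by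
  have hqM : ¬ q ∣ M := fun hd => hq.one_lt.ne' (Nat.eq_one_of_dvd_coprimes hc hd dvd_rfl)
  have hqM' : ¬ q ∣ M' := fun hd => hq.one_lt.ne' (Nat.eq_one_of_dvd_coprimes hc' hd dvd_rfl)
  obtain ⟨D⟩ := nonempty_alData M q hq hqM
  obtain ⟨D'⟩ := nonempty_alData M' q hq hqM'
  apply (bcX K (M' * q)).injective
  rw [S44.X.Model.bcX_ww hq hc' D', bcX_inclK, bcX_inclK, S44.X.Model.bcX_ww hq hc D,
    LevelChange.levelIncl_w hq h h' D.w D.w_al D.w_be D'.w D'.w_al D'.w_be]

theorem inclK_mem_VV (A₀ : ValuationSubring K) [IsDiscreteValuationRing A₀] (hq : q.Prime)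
    (h : M ∣ M') (h' : M * q ∣ M' * q) (hc : M.Coprime q) (hc' : M'.Coprime q) (c : Fin 2)
    (z : FK K (M * q)) : inclK K h' z ∈ VV A₀ hc' c ↔ z ∈ VV A₀ hc c := by
  fin_cases c
  · exact inclK_mem_Og A₀ h' z
  · show inclK K h' z ∈ VV A₀ hc' 1 ↔ z ∈ VV A₀ hc 1
    rw [mem_VV_one, mem_VV_one, ww_inclK hq h h' hc hc']
    exact inclK_mem_Og A₀ h' _

theorem valuation_inclK (A₀ : ValuationSubring K) [IsDiscreteValuationRing A₀] (hq : q.Prime)
    (h : M ∣ M') (h' : M * q ∣ M' * q) (hc : M.Coprime q) (hc' : M'.Coprime q) (c : Fin 2)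
    {z : FK K (M * q)} (hz : (VV A₀ hc c).valuation z = 1) :
    (VV A₀ hc' c).valuation (inclK K h' z) = 1 := by
  rw [valuation_eq_one_iff'] at hz ⊢
  obtain ⟨h0, h1, h2⟩ := hz
  refine ⟨(map_ne_zero _).2 h0, (inclK_mem_VV A₀ hq h h' hc hc' c z).2 h1, ?_⟩
  rw [← map_inv₀]
  exact (inclK_mem_VV A₀ hq h h' hc hc' c _).2 h2

end AL

section Main

/-- the degree of `X₀(4 N) → X₀(N)` is `4` or `6`. -/
theorem dedekindPsi_four_mul {N : ℕ} (hN : N ≠ 0) :
    dedekindPsi (2 * (2 * N)) = dedekindPsi N * 4 ∨ dedekindPsi (2 * (2 * N)) = dedekindPsi N * 6 := by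
  have h2N : 2 * N ≠ 0 := mul_ne_zero two_ne_zero hN
  rw [S20.Combinatorics.dedekindPsi_mul_of_dvd h2N Nat.prime_two (Dvd.intro _ rfl)]
  by_cases h : 2 ∣ N
  · left
    rw [S20.Combinatorics.dedekindPsi_mul_of_dvd hN Nat.prime_two h]
    ring
  · right
    rw [S20.Combinatorics.dedekindPsi_mul_of_not_dvd hN Nat.prime_two h]
    ring

/-- orthogonality descends from level `N'` to level `N ∣ N'` if the degree is prime to `n`. -/
theorem weil_eq_one_of_level {N N' : ℕ} [NeZero N] [NeZero N'] (h : N ∣ N') {e n : ℕ}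
    (he : dedekindPsi N' = dedekindPsi N * e) (hn : 0 < n) (hen : n.Coprime e) {x y : JZero N}
    (a : TorsRep n x) (b : TorsRep n y)
    (H : ∀ (x' y' : JZero N') (a' : TorsRep n x') (b' : TorsRep n y'),
      a'.f = levelIncl h a.f → b'.f = levelIncl h b.f → weil n x' y' = 1) : weil n x y = 1 := by
  let _ := (levelIncl h).toRingHom.toAlgebra
  have : IsScalarTower Kbar (FN N) (FN N') :=
    IsScalarTower.of_algebraMap_eq fun a => ((levelIncl h).commutes a).symm
  have : Module.Finite (FN N) (FN N') := Module.finite_of_finrank_pos (LevelChange.finrank_pos h)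
  have : HasPrincipalDivisors Kbar (FN N') := hasPrincipalDivisors
  have : FundamentalIdentity Kbar (FN N) (FN N') := fundamentalIdentity
  have hfin := dedekindPsi_mul_finrank h
  have hdeg : Module.finrank (FN N) (FN N') = e := by
    rw [he] at hfin
    exact Nat.eq_of_mul_eq_mul_left (dedekindPsi_pos N) hfin
  refine weil_eq_one_of_pull (F' := FN N') hn (by rw [hdeg]; exact hen) a.zsmul_eq_zero
    b.zsmul_eq_zero ?_
  exact H _ _ (torsRepPull (F' := FN N') a) (torsRepPull (F' := FN N') b) rfl rfl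

variable {M q : ℕ} [NeZero M] [NeZero q]

/-- **The level change for (O).** -/
theorem stmtO_of_mul_four (hq : q.Prime) (hq2 : q ≠ 2) (H : StmtO (M * 4) q) : StmtO M q := by
  intro hc D A _ hA n hn hqn h6 x y a u hau hu hy
  have h : M ∣ M * 4 := Dvd.intro _ rfl
  have h' : M * q ∣ M * 4 * q := Nat.mul_dvd_mul_right h q
  have h2q : Nat.Coprime 2 q := (Nat.coprime_primes Nat.prime_two hq).2 (Ne.symm hq2)
  have hc' : (M * 4).Coprime q := Nat.Coprime.mul_left hc (Nat.Coprime.pow_left 2 h2q)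
  have hqM' : ¬ q ∣ M * 4 := fun hd => hq.one_lt.ne' (Nat.eq_one_of_dvd_coprimes hc' hd dvd_rfl)
  obtain ⟨D'⟩ := nonempty_alData (M * 4) q hq hqM'
  obtain ⟨b, hb1, hb2⟩ := hy
  have h2 : n.Coprime 2 := Nat.Coprime.coprime_dvd_right (by norm_num) h6
  have e0 : dedekindPsi (M * 4 * q) = dedekindPsi (2 * (2 * (M * q))) := by
    congr 1
    ring
  obtain ⟨e, he, hen⟩ : ∃ e, dedekindPsi (M * 4 * q) = dedekindPsi (M * q) * e ∧ n.Coprime e := by
    rcases dedekindPsi_four_mul (NeZero.ne (M * q)) with h4 | h4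
    · exact ⟨4, e0.trans h4, Nat.Coprime.pow_right 2 h2⟩
    · exact ⟨6, e0.trans h4, h6⟩
  refine weil_eq_one_of_level h' he hn hen a b fun x' y' a' b' ha' hb' => ?_
  refine H hc' D' A hA n hn hqn h6 x' y' a' (inclK (K0 A) h' u) ?_
    (fun c => valuation_inclK (A0 A) hq h h' hc hc' c (hu c)) ⟨b', ?_, ?_⟩
  · rw [bcX_inclK, ← hau, ha']
  · rw [hb']
    exact LevelChange.cong1_levelIncl h' hb1
  · rw [hb', ← LevelChange.levelIncl_w hq h h' D.w D.w_al D.w_be D'.w D'.w_al D'.w_be]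
    exact LevelChange.cong1_levelIncl h' hb2

end Main

end Fermat.Agent.S43.E0.Pull

end
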