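/-
Row 37 (S43), block E0, node PULL (helper27).  `nodePull : E0.NodePull` (the package `PullPkg M q` of `E0/OrthJ.lean`), and the
change of level `N ∣ N'` in the `J`-language, on top of helper124's generic `Pull/Weil.lean`.

* `algL h`, `towerL`, `finiteL`, `fundL` : `FN N'` as a finite `FN N`-algebra through `GAL.levelIncl h`;
* `degL h = [FN N' : FN N]`, `dedekindPsi_mul_degL`, `degL_four` (`= 4` or `6`), `coprime_degL_four`, `not_dvd_degL_four`;
* `pullJ h : JZero N →+ JZero N'`, `torsRepPullJ` (representative with function `levelIncl h a.f`);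
* `weil_pullJ`, `weil_eq_one_of_pullJ`;  `smul_pullJ` : Galois equivariance (all classes);
* `isTorJ_pullJ` : toric classes stay toric;  `levelIncl_T` : `T_ℓ` (multiplicative, `GAL.E.HeckeOp`) commutes with `levelIncl`.
-/
import Fermat.Agent.S43.E0.Pull.Weil
import Fermat.Agent.S43.E0.OrthJ
import Fermat.Agent.C1.LevelChange
import Fermat.Agent.S15.LocN.Jac
import Fermat.Agent.S15.HJ.Equiv

set_option autoImplicit false
set_option linter.unusedSectionVars false

noncomputable section

namespace Fermat.Agent.S43.E0.PullJ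

open Fermat.Agent.S43.E0.Pull

open AlgebraicCurve Fermat.Agent.S24.FF Fermat.Agent.S27 Fermat.Agent.S19.Weil
open Fermat.Agent.S37.HeckeInputs Fermat.Agent.S15.LocN
open ModularCurve Fermat.Agent.S24 Fermat.Agent.S24.B Fermat.Agent.GAL Fermat.Agent.GAL.E
  Fermat.Agent.C1 Fermat.Agent.S17.W

/-- Two representatives with the same function represent the same class. -/
theorem eq_of_torsRep_f_eq {K F : Type*} [Field K] [Field F] [Algebra K F] {n : ℕ} (hn : 0 < n)
    {x y : Pic0 K F} (a : TorsRep n x) (b : TorsRep n y) (h : a.f = b.f) : x = y := by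
  have hD : a.D = b.D := by
    ext v
    have h1 := a.div.2 v
    have h2 := b.div.2 v
    rw [h, ← h2, Finsupp.smul_apply, Finsupp.smul_apply, smul_eq_mul, smul_eq_mul] at h1
    exact mul_left_cancel₀ (by exact_mod_cast hn.ne') h1
  rw [← a.cls_eq, ← b.cls_eq, hD]

section Modular

variable {N N' : ℕ} [NeZero N] [NeZero N']

/-- `FN N'` as an algebra over `FN N`. -/
abbrev algL (h : N ∣ N') : Algebra (FN N) (FN N') := algebraAlong (levelIncl h)

theorem towerL (h : N ∣ N') : letI := algL h; IsScalarTower Kbar (FN N) (FN N') :=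
  isScalarTower_along (levelIncl h)

theorem finiteL (h : N ∣ N') : letI := algL h; Module.Finite (FN N) (FN N') :=
  letI := algL h
  Module.finite_of_finrank_pos (LevelChange.finrank_pos h)

theorem fundL (h : N ∣ N') :
    letI := algL h; haveI := towerL h; haveI := finiteL h
    FundamentalIdentity Kbar (FN N) (FN N') :=
  letI := algL h; haveI := towerL h; haveI := finiteL h
  fundamentalIdentity

/-- The degree of `X₀(N') → X₀(N)`. -/
def degL (h : N ∣ N') : ℕ := letI := algL h; Module.finrank (FN N) (FN N')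

theorem dedekindPsi_mul_degL (h : N ∣ N') : dedekindPsi N * degL h = dedekindPsi N' :=
  dedekindPsi_mul_finrank h

/-- `π^* : J₀(N) → J₀(N')`. -/
def pullJ (h : N ∣ N') : JZero N →+ JZero N' :=
  letI := algL h; haveI := towerL h; haveI := finiteL h; haveI := fundL h
  Pic0.pullbackHom (FN N')

/-- The pull-back of a representative: the function is `levelIncl h a.f`. -/
def torsRepPullJ (h : N ∣ N') {n : ℕ} {x : JZero N} (a : TorsRep n x) : TorsRep n (pullJ h x) :=
  letI := algL h; haveI := towerL h; haveI := finiteL h; haveI := fundL h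
  Free.torsRepPull (F' := FN N') a

@[simp] theorem torsRepPullJ_f (h : N ∣ N') {n : ℕ} {x : JZero N} (a : TorsRep n x) :
    (torsRepPullJ h a).f = levelIncl h a.f := rfl

theorem zsmul_pullJ (h : N ∣ N') {n : ℕ} {x : JZero N} (hx : (n : ℤ) • x = 0) :
    (n : ℤ) • pullJ h x = 0 := by
  rw [← map_zsmul, hx, map_zero]

/-- `e_n(π^* x, π^* y) = e_n(x, y) ^ deg π`. -/
theorem weil_pullJ (h : N ∣ N') {n : ℕ} (hn : 0 < n) {x y : JZero N} (hx : (n : ℤ) • x = 0)
    (hy : (n : ℤ) • y = 0) : weil n (pullJ h x) (pullJ h y) = weil n x y ^ degL h := by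
  let _ := algL h; have := towerL h; have := finiteL h; have := fundL h
  exact weil_pull hn hx hy

theorem weil_eq_one_of_pullJ (h : N ∣ N') {n : ℕ} (hn : 0 < n) (hd : n.Coprime (degL h))
    {x y : JZero N} (hx : (n : ℤ) • x = 0) (hy : (n : ℤ) • y = 0)
    (hw : weil n (pullJ h x) (pullJ h y) = 1) : weil n x y = 1 := by
  let _ := algL h; have := towerL h; have := finiteL h; have := fundL h
  exact weil_eq_one_of_pull hn hd hx hy hw

/-- Galois equivariance of `π^*` on torsion classes. -/
theorem smul_pullJ_of_tors (h : N ∣ N') {n : ℕ} (hn : 0 < n) (σ : GQ) {x : JZero N}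
    (hx : (n : ℤ) • x = 0) : σ • pullJ h x = pullJ h (σ • x) := by
  obtain ⟨a, -⟩ := exists_torsRep hx ∅
  refine eq_of_torsRep_f_eq hn ((torsRepPullJ h a).smul (gal N' σ))
    (torsRepPullJ h (a.smul (gal N σ))) ?_
  show galF N' σ (levelIncl h a.f) = levelIncl h (galF N σ a.f)
  exact LevelChange.galF_levelIncl h σ a.f

theorem pullJ_cls (h : N ∣ N') {D : Divisor Kbar (FN N)} (hD : Divisor.degree D = 0) :
    pullJ h (S27.cls D) =
      S27.cls (Divisor.pullbackAlong (levelIncl h) (LevelChange.isIntegral_levelIncl h) D) := by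
  let _ := algL h; have := towerL h; have := finiteL h; have := fundL h
  exact (Free.cls_pullback (F' := FN N') hD).symm

theorem degree_pullbackAlong_levelIncl (h : N ∣ N') {D : Divisor Kbar (FN N)}
    (hD : Divisor.degree D = 0) :
    Divisor.degree
      (Divisor.pullbackAlong (levelIncl h) (LevelChange.isIntegral_levelIncl h) D) = 0 := by
  let _ := algL h; have := towerL h; have := finiteL h; have := fundL h
  have := Divisor.degree_pullback (F' := FN N') D
  rw [hD, mul_zero] at this
  exact this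

/-- Galois equivariance of `π^*`. -/
theorem smul_pullJ (h : N ∣ N') (σ : GQ) (x : JZero N) : σ • pullJ h x = pullJ h (σ • x) := by
  obtain ⟨D, hD, rfl⟩ := S27.cls_surjective x
  have hI : SemilinearAut.IntertwinesAlong (levelIncl h : FN N →+* FN N') (gal N σ) (gal N' σ) :=
    fun u => LevelChange.galF_levelIncl h σ u
  rw [smul_class_def, smul_class_def, pullJ_cls h hD, ← cls_smul _ hD,
    ← cls_smul _ (degree_pullbackAlong_levelIncl h hD),
    pullJ_cls h (by rw [SemilinearAut.degree_smul, hD]), S15.HJ.pullbackAlong_smul _ _ hI]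

end Modular

section Toric

variable {M M' q : ℕ} [NeZero M] [NeZero M'] [NeZero q]

/-- Toric classes stay toric. -/
theorem isTorJ_pullJ (hq : q.Prime) (h : M ∣ M') (h' : M * q ∣ M' * q) (D : ALData M q)
    (D' : ALData M' q) {A : ValuationSubring Kbar} {n : ℕ} {x : JZero (M * q)}
    (hx : IsTorJ D A n x) : IsTorJ D' A n (pullJ h' x) := by
  obtain ⟨a, h1, h2⟩ := hx
  refine ⟨torsRepPullJ h' a, LevelChange.cong1_levelIncl h' h1, ?_⟩
  rw [torsRepPullJ_f, ← LevelChange.levelIncl_w hq h h' D.w D.w_al D.w_be D'.w D'.w_al D'.w_be]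
  exact LevelChange.cong1_levelIncl h' h2

end Toric

section Deg

/-- `ψ(2 N) = 2 ψ(N)` or `3 ψ(N)`. -/
theorem dedekindPsi_two_mul (N : ℕ) (hN : N ≠ 0) :
    dedekindPsi (2 * N) = 2 * dedekindPsi N ∨ dedekindPsi (2 * N) = 3 * dedekindPsi N := by
  by_cases h : 2 ∣ N
  · exact Or.inl (S20.Combinatorics.dedekindPsi_mul_of_dvd hN Nat.prime_two h)
  · exact Or.inr (S20.Combinatorics.dedekindPsi_mul_of_not_dvd hN Nat.prime_two h)

/-- `ψ(4 N) = 4 ψ(N)` or `6 ψ(N)`. -/
theorem dedekindPsi_four_mul (N : ℕ) (hN : N ≠ 0) :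
    dedekindPsi (4 * N) = 4 * dedekindPsi N ∨ dedekindPsi (4 * N) = 6 * dedekindPsi N := by
  have e : 4 * N = 2 * (2 * N) := by ring
  rw [e, S20.Combinatorics.dedekindPsi_mul_of_dvd (mul_ne_zero two_ne_zero hN) Nat.prime_two
    (Dvd.intro _ rfl)]
  rcases dedekindPsi_two_mul N hN with h | h
  · left; rw [h]; ring
  · right; rw [h]; ring

/-- **DEG**: if `N' = 4 N` then `[FN N' : FN N] ∈ {4, 6}`. -/
theorem degL_four {N N' : ℕ} [NeZero N] [NeZero N'] (h : N ∣ N') (hN' : N' = 4 * N) :
    degL h = 4 ∨ degL h = 6 := by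
  have h1 : dedekindPsi N * degL h = dedekindPsi (4 * N) := by
    rw [dedekindPsi_mul_degL h, hN']
  have hpos := dedekindPsi_pos N
  rcases dedekindPsi_four_mul N (NeZero.ne N) with h2 | h2
  · left
    rw [h2, mul_comm] at h1
    exact Nat.eq_of_mul_eq_mul_right hpos h1
  · right
    rw [h2, mul_comm] at h1
    exact Nat.eq_of_mul_eq_mul_right hpos h1

/-- **DEG**: the degree of `X₀(4 N) → X₀(N)` is prime to every `n` prime to `6`. -/
theorem coprime_degL_four {N N' : ℕ} [NeZero N] [NeZero N'] (h : N ∣ N') (hN' : N' = 4 * N)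
    {n : ℕ} (hn : n.Coprime 6) : n.Coprime (degL h) := by
  have h2 : n.Coprime 2 := Nat.Coprime.coprime_dvd_right (by norm_num) hn
  rcases degL_four h hN' with h1 | h1
  · rw [h1]
    exact Nat.Coprime.pow_right 2 h2
  · rw [h1]; exact hn

/-- **DEG**, prime form. -/
theorem not_dvd_degL_four {N N' : ℕ} [NeZero N] [NeZero N'] (h : N ∣ N') (hN' : N' = 4 * N)
    {p : ℕ} (hp : p.Prime) (hp5 : 5 ≤ p) : ¬ p ∣ degL h := by
  intro hd
  rcases degL_four h hN' with h1 | h1
  · rw [h1] at hd
    have := Nat.le_of_dvd (by norm_num) hd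
    omega
  · rw [h1] at hd
    have h6 : p ≤ 6 := Nat.le_of_dvd (by norm_num) hd
    interval_cases p
    · exact absurd hd (by norm_num)
    · exact absurd hp (by norm_num)

end Deg

section Pkg

/-- `T_ℓ` commutes with the inclusion of levels. -/
theorem levelIncl_T {N N' ℓ : ℕ} [NeZero N] [NeZero N'] [NeZero ℓ] (h : N ∣ N') (H : HeckeOp N ℓ)
    (H' : HeckeOp N' ℓ) (f : FN N) : levelIncl h (H.T f) = H'.T (levelIncl h f) := by
  apply Subtype.ext
  apply qExpand_injective (R := Kbar) ℓ
  rw [H'.qExpand_T, coe_levelIncl, coe_levelIncl, H.qExpand_T]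

/-- **The package of the change of level `M q → M * 4 * q`.** -/
def pullPkg (M q : ℕ) [NeZero M] [NeZero q] (hq : q.Prime) : PullPkg M q where
  ι := (levelIncl (Nat.mul_dvd_mul_right (Dvd.intro 4 rfl) q : M * q ∣ M * 4 * q)).toRingHom
  pb := pullJ (Nat.mul_dvd_mul_right (Dvd.intro 4 rfl) q)
  rep := fun a => ⟨torsRepPullJ _ a, rfl⟩
  d := degL (Nat.mul_dvd_mul_right (Dvd.intro 4 rfl) q : M * q ∣ M * 4 * q)
  d_primes := fun p hp hd => by
    by_contra h3
    exact not_dvd_degL_four _ (by ring) hp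
      (by
        have h4 : p ≠ 4 := by rintro rfl; exact absurd hp (by norm_num)
        omega) hd
  weil_pb := fun n hn x y hx hy => weil_pullJ _ hn hx hy
  ι_gal := fun τ f => (LevelChange.galF_levelIncl _ τ f).symm
  ι_T := fun ℓ _ H H' f => levelIncl_T _ H H' f
  ι_w := fun D D' f =>
    LevelChange.levelIncl_w hq (Dvd.intro 4 rfl) _ D.w D.w_al D.w_be D'.w D'.w_al D'.w_be f
  ι_cong1 := fun A f hf => LevelChange.cong1_levelIncl _ hf

/-- **Node PULL.** -/
theorem nodePull : NodePull := fun M q _ _ hq _ => ⟨pullPkg M q hq⟩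

end Pkg

end Fermat.Agent.S43.E0.PullJ

end
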